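import Mathlib
import Fermat.Prelude.Def_AlgebraicCurve_DivisorPushPull
import Fermat.Agent.S24.FFDegree

/-!
# Lib/FF: `HasPrincipalDivisors` for function fields of curves (helper220)

`K` algebraically closed of characteristic zero, `F` a field finite over `K(j)` with `j`
transcendental.  Every nonzero `f : F` has a divisor (finitely many zeros and poles) of degree
zero.  This is a thin wrapper around helper804's `Fermat.Agent.S24.FF` layer.
-/

set_option autoImplicit false

namespace Fermat.Agent.Lib.FF

open AlgebraicCurve IntermediateField

variable {K F : Type*} [Field K] [Field F] [Algebra K F]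

/-- A function on a curve over an algebraically closed field of characteristic zero has finitely
many zeros and poles. -/
theorem finite_setOf_ord_ne_zero' [IsAlgClosed K] [CharZero K] (j : F) (hj : Transcendental K j)
    [FiniteDimensional K⟮j⟯ F] (f : F) : {v : Place K F | v.ord f ≠ 0}.Finite := by
  by_cases hfr : f ∈ (algebraMap K F).range
  · obtain ⟨a, rfl⟩ := hfr
    convert Set.finite_empty
    ext v
    simp [Fermat.Agent.S24.FF.ord_algebraMap]
  · have hft : Transcendental K f := Fermat.Agent.S24.FF.transcendental_of_not_mem_range hfr
    haveI : FiniteDimensional K⟮f⟯ F :=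
      Fermat.Agent.S24.FF.finiteDimensional_adjoin_of_transcendental hj hft
    exact Fermat.Agent.S24.FF.finite_setOf_ord_ne_zero hft

/-- **(A)** `HasPrincipalDivisors K F` for the function field of a curve over an algebraically
closed field of characteristic zero. -/
theorem hasPrincipalDivisors [IsAlgClosed K] [CharZero K] (j : F) (hj : Transcendental K j)
    [FiniteDimensional K⟮j⟯ F] : HasPrincipalDivisors K F := by
  classical
  refine ⟨fun f _ => ?_⟩
  let D : Divisor K F :=
    Finsupp.ofSupportFinite (fun v => v.ord f) (finite_setOf_ord_ne_zero' j hj f)
  exact ⟨D, fun v => rfl, Fermat.Agent.S24.FF.degree_principal j hj f D (fun v => rfl)⟩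

end Fermat.Agent.Lib.FF
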