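import Mathlib
import Fermat.Prelude.Def_AlgebraicCurve_DivisorPushPull
import Fermat.Agent.S24.FFOrdLike

/-!
# Lib/FF: places of a field attached to the nonzero primes of a Dedekind subring (helper220)

Generic dictionary: `S` a Dedekind domain with fraction field `F`, `K ⊆ S`.  The places `w` of
`F/K` with `S ⊆ O_w` and nonzero center are exactly the places `placeOf K q`, `q` a nonzero prime
of `S`.  (Generalises helper804's `S24/FFDict.lean`, which treats the integral closure of `K[t]`.)
-/

set_option autoImplicit false
set_option linter.unusedSectionVars false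

namespace Fermat.Agent.Lib.FF

open AlgebraicCurve IsDedekindDomain

variable {K F : Type*} [Field K] [Field F] [Algebra K F]
variable {S : Type*} [CommRing S] [IsDedekindDomain S] [Algebra S F] [IsFractionRing S F]
  [Algebra K S] [IsScalarTower K S F]

variable (K) in
/-- The place of `F/K` attached to a nonzero prime of the Dedekind domain `S`. -/
noncomputable def placeOf (q : HeightOneSpectrum S) : Place K F :=
  Place.ofHeightOneSpectrum (K := K) q

theorem placeOf_toValuationSubring (q : HeightOneSpectrum S) :
    (placeOf K q : Place K F).toValuationSubring = (q.valuation F).valuationSubring := rfl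

theorem mem_placeOf_iff (q : HeightOneSpectrum S) (f : F) :
    f ∈ (placeOf K q : Place K F).toValuationSubring ↔ q.valuation F f ≤ 1 := by
  rw [placeOf_toValuationSubring, Valuation.mem_valuationSubring_iff]

theorem algebraMap_mem_placeOf (q : HeightOneSpectrum S) (s : S) :
    algebraMap S F s ∈ (placeOf K q : Place K F).toValuationSubring := by
  rw [mem_placeOf_iff]
  exact q.valuation_le_one s

/-- The order function of the place attached to `q` is the `q`-adic valuation. -/
theorem ord_placeOf (q : HeightOneSpectrum S) (f : F) :
    (placeOf K q : Place K F).ord f = -WithZero.log (q.valuation F f) := by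
  rcases eq_or_ne f 0 with rfl | hf
  · simp
  obtain ⟨π, hπ⟩ := q.valuation_exists_uniformizer F
  have hπ0 : π ≠ 0 := by
    rintro rfl
    rw [map_zero] at hπ
    exact WithZero.exp_ne_zero hπ.symm
  symm
  refine Fermat.Agent.S24.FF.ordLike_eq_ord (fun f => -WithZero.log (q.valuation F f)) ?_
    (placeOf K q) ?_ hπ0 ?_ hf
  · intro f g hf hg
    simp only [map_mul]
    rw [WithZero.log_mul ((Valuation.ne_zero_iff _).mpr hf) ((Valuation.ne_zero_iff _).mpr hg)]
    ring
  · intro f hf
    rw [placeOf_toValuationSubring, Valuation.mem_valuationSubring_iff,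
      neg_nonneg, WithZero.log_le_iff_le_exp ((Valuation.ne_zero_iff _).mpr hf)]
    simp
  · simp [hπ]

/-- The ring homomorphism `S → O_w` when `S ⊆ O_w`. -/
def toPlaceRing (w : Place K F) (hw : ∀ s : S, algebraMap S F s ∈ w.toValuationSubring) :
    S →+* w.toValuationSubring where
  toFun s := ⟨algebraMap S F s, hw s⟩
  map_one' := Subtype.ext (map_one _)
  map_mul' _ _ := Subtype.ext (map_mul _ _ _)
  map_zero' := Subtype.ext (map_zero _)
  map_add' _ _ := Subtype.ext (map_add _ _ _)

@[simp] theorem coe_toPlaceRing (w : Place K F)
    (hw : ∀ s : S, algebraMap S F s ∈ w.toValuationSubring) (s : S) :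
    ((toPlaceRing w hw s : w.toValuationSubring) : F) = algebraMap S F s := rfl

/-- The center on `S` of a place `w` with `S ⊆ O_w`. -/
def center (w : Place K F) (hw : ∀ s : S, algebraMap S F s ∈ w.toValuationSubring) : Ideal S :=
  Ideal.comap (toPlaceRing w hw) (IsLocalRing.maximalIdeal w.toValuationSubring)

instance center_isPrime (w : Place K F)
    (hw : ∀ s : S, algebraMap S F s ∈ w.toValuationSubring) : (center w hw).IsPrime := by
  unfold center
  infer_instance

theorem mem_center_iff (w : Place K F) (hw : ∀ s : S, algebraMap S F s ∈ w.toValuationSubring)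
    (s : S) : s ∈ center w hw ↔ algebraMap S F s ∈ w.toValuationSubring.nonunits := by
  rw [center, Ideal.mem_comap]
  exact (ValuationSubring.coe_mem_nonunits_iff (a := toPlaceRing w hw s)).symm

theorem mem_center_iff_ord_pos (w : Place K F)
    (hw : ∀ s : S, algebraMap S F s ∈ w.toValuationSubring) {s : S} (hs : s ≠ 0) :
    s ∈ center w hw ↔ 0 < w.ord (algebraMap S F s) := by
  rw [mem_center_iff, Fermat.Agent.S24.FF.ord_pos_iff_mem_nonunits]
  exact (map_ne_zero_iff _ (IsFractionRing.injective S F)).mpr hs

/-- **Dictionary, surjectivity**: a place with `S ⊆ O_w` and nonzero center is the place of its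
center. -/
theorem placeOf_center (w : Place K F) (hw : ∀ s : S, algebraMap S F s ∈ w.toValuationSubring)
    (hne : center w hw ≠ ⊥) :
    placeOf K (⟨center w hw, inferInstance, hne⟩ : HeightOneSpectrum S) = w := by
  apply Place.ext
  rw [placeOf_toValuationSubring]
  haveI : Ring.KrullDimLE 1 ((HeightOneSpectrum.valuation F
      (⟨center w hw, inferInstance, hne⟩ : HeightOneSpectrum S)).valuationSubring) := by
    rw [← HeightOneSpectrum.valuationSubringAtPrime_eq_valuationSubring]
    infer_instance
  refine ValuationSubring.eq_of_le_of_ne_top _ ?_ w.ne_top'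
  intro x hx
  rw [Valuation.mem_valuationSubring_iff] at hx
  obtain ⟨n, d, hnd⟩ := HeightOneSpectrum.exists_primeCompl_mul_eq_of_integer _ x hx
  have hd : (d : S) ∉ center w hw := d.2
  have hd' : algebraMap S F d ∉ w.toValuationSubring.nonunits := fun h =>
    hd ((mem_center_iff w hw d).mpr h)
  have hdinv : (algebraMap S F d)⁻¹ ∈ w.toValuationSubring := by
    by_contra hcon
    exact hd' ((ValuationSubring.mem_nonunits_iff_or _).mpr (Or.inr hcon))
  have hd0 : algebraMap S F d ≠ 0 := by
    intro h0
    apply hd'
    rw [h0]
    exact (ValuationSubring.mem_nonunits_iff_or _).mpr (Or.inl rfl)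
  have hx' : x = algebraMap S F n * (algebraMap S F d)⁻¹ := by
    rw [← hnd, mul_assoc, mul_inv_cancel₀ hd0, mul_one]
  rw [hx']
  exact mul_mem (hw n) hdinv

theorem mem_nonunits_valuationSubring_iff_lt_one {Γ₀ : Type*}
    [LinearOrderedCommGroupWithZero Γ₀] (w : Valuation F Γ₀) (x : F) :
    x ∈ w.valuationSubring.nonunits ↔ w x < 1 := by
  rw [ValuationSubring.mem_nonunits_iff]
  exact (Valuation.isEquiv_valuation_valuationSubring w).lt_one_iff_lt_one.symm

/-- **Dictionary, injectivity**: the center of the place of `q` is `q`. -/
theorem center_placeOf (q : HeightOneSpectrum S) :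
    center (placeOf K q : Place K F) (algebraMap_mem_placeOf q) = q.asIdeal := by
  ext s
  rw [mem_center_iff, placeOf_toValuationSubring,
    mem_nonunits_valuationSubring_iff_lt_one]
  exact q.valuation_lt_one_iff_mem s

theorem placeOf_injective :
    Function.Injective (placeOf K : HeightOneSpectrum S → Place K F) := by
  intro q q' h
  have h1 := center_placeOf (K := K) (F := F) q
  have h2 := center_placeOf (K := K) (F := F) q'
  apply HeightOneSpectrum.ext
  rw [← h1, ← h2]
  congr 1

end Fermat.Agent.Lib.FF
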