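import Mathlib
import Fermat.Prelude.Def_AlgebraicCurve_DivisorPushPull
import Fermat.Agent.Lib.FF.PrimePlace
import Fermat.Agent.S24.FFFinite
import Fermat.Agent.S24.FFIdentity

/-!
# Lib/FF: places of `F'` over a place `v` of `F` and primes of the integral closure of `O_v`
(helper220)

`F'/F` a finite extension of fields over `K` (characteristic zero), `v` a place of `F/K`,
`S = integralClosure O_v F'`.  Then `S` is a Dedekind domain, and the places of `F'` restricting
to `v` are exactly the places attached to the nonzero primes of `S`.
-/

set_option autoImplicit false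
set_option linter.unusedSectionVars false
set_option linter.style.haveILetI false

namespace Fermat.Agent.Lib.FF

open AlgebraicCurve IsDedekindDomain

variable {K F : Type*} [Field K] [Field F] [Algebra K F]
variable (F' : Type*) [Field F'] [Algebra K F'] [Algebra F F'] [IsScalarTower K F F']

/-- `F'` as an algebra over the valuation ring `O_v` of a place `v` of `F`. -/
noncomputable abbrev algebraPlaceRing (v : Place K F) : Algebra v.toValuationSubring F' :=
  ((algebraMap F F').comp (algebraMap v.toValuationSubring F)).toAlgebra

attribute [local instance 10] algebraPlaceRing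

theorem algebraMap_placeRing_apply (v : Place K F) (a : v.toValuationSubring) :
    algebraMap v.toValuationSubring F' a = algebraMap F F' (a : F) := rfl

instance isScalarTower_placeRing (v : Place K F) : IsScalarTower v.toValuationSubring F F' :=
  IsScalarTower.of_algebraMap_eq fun _ => rfl

instance isScalarTower_placeRing' (v : Place K F) : IsScalarTower K v.toValuationSubring F' :=
  IsScalarTower.of_algebraMap_eq fun a => by
    rw [algebraMap_placeRing_apply, Place.coe_algebraMap, ← IsScalarTower.algebraMap_apply]

instance isTorsionFree_placeRing (v : Place K F) :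
    Module.IsTorsionFree v.toValuationSubring F' :=
  Module.isTorsionFree_iff_algebraMap_injective.mpr fun _ _ h =>
    Subtype.ext ((algebraMap F F').injective h)

/-- The integral closure of `O_v` in `F'`. -/
noncomputable abbrev overRing (v : Place K F) : Subalgebra v.toValuationSubring F' :=
  integralClosure v.toValuationSubring F'

section instances

variable [CharZero K] [FiniteDimensional F F'] (v : Place K F)

omit [FiniteDimensional F F'] in
theorem charZero_of_algebra (K F : Type*) [Field K] [CharZero K] [Field F] [Algebra K F] :
    CharZero F :=
  charZero_of_injective_algebraMap (algebraMap K F).injective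

instance instDedekindOverRing : IsDedekindDomain (overRing F' v) := by
  haveI : CharZero F := charZero_of_algebra K F
  exact integralClosure.isDedekindDomain v.toValuationSubring F F'

instance instFractionOverRing : IsFractionRing (overRing F' v) F' :=
  integralClosure.isFractionRing_of_finite_extension F F'

instance instFiniteOverRing : Module.Finite v.toValuationSubring (overRing F' v) := by
  haveI : CharZero F := charZero_of_algebra K F
  exact IsIntegralClosure.finite v.toValuationSubring F F' (overRing F' v)

instance instTowerOverRing : IsScalarTower K (overRing F' v) F' :=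
  IsScalarTower.of_algebraMap_eq fun _ => rfl

end instances

section bridge

variable [CharZero K] [FiniteDimensional F F'] (v : Place K F)

theorem krullDimLE_one_placeRing : Ring.KrullDimLE 1 v.toValuationSubring :=
  Ring.KrullDimLE.mk₁' (fun _ hI hp => hp.isMaximal hI)

variable {F'} {v} in
/-- The place attached to a nonzero prime of the integral closure of `O_v` restricts to `v`. -/
theorem restrict_placeOf (q : HeightOneSpectrum (overRing F' v)) :
    (placeOf K q : Place K F').restrict F = v := by
  symm
  apply Place.ext
  haveI := krullDimLE_one_placeRing v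
  refine ValuationSubring.eq_of_le_of_ne_top _ ?_ ((placeOf K q : Place K F').restrict F).ne_top'
  intro x hx
  rw [Place.restrict_toValuationSubring, ValuationSubring.mem_comap]
  exact algebraMap_mem_placeOf q (algebraMap v.toValuationSubring (overRing F' v) ⟨x, hx⟩)

variable {F'} {v} in
/-- `O_v ⊆ O_w` for a place `w` over `v`. -/
theorem algebraMap_mem_of_restrict_eq {w : Place K F'} (hw : w.restrict F = v)
    (a : v.toValuationSubring) : algebraMap F F' (a : F) ∈ w.toValuationSubring := by
  have ha : (a : F) ∈ (w.restrict F).toValuationSubring := by
    rw [hw]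
    exact a.2
  exact ha

variable {F'} {v} in
/-- The integral closure of `O_v` is contained in `O_w` for every place `w` over `v`. -/
theorem mem_of_mem_overRing {w : Place K F'} (hw : w.restrict F = v) (s : overRing F' v) :
    algebraMap (overRing F' v) F' s ∈ w.toValuationSubring := by
  let φ : v.toValuationSubring →+* w.toValuationSubring :=
    { toFun := fun a => ⟨algebraMap F F' (a : F), algebraMap_mem_of_restrict_eq hw a⟩
      map_one' := Subtype.ext (map_one _)
      map_mul' := fun _ _ => Subtype.ext (map_mul _ _ _)
      map_zero' := Subtype.ext (map_zero _)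
      map_add' := fun _ _ => Subtype.ext (map_add _ _ _) }
  obtain ⟨p, hpm, hp⟩ := s.2
  have hint' : IsIntegral w.toValuationSubring (s : F') := by
    refine ⟨p.map φ, hpm.map φ, ?_⟩
    rw [← hp, Polynomial.eval₂_map]
    rfl
  obtain ⟨y, hy⟩ := IsIntegrallyClosed.isIntegral_iff.mp hint'
  have : algebraMap (overRing F' v) F' s = (y : F') := hy.symm
  rw [this]
  exact y.2

variable {F'} {v} in
/-- The center on the integral closure of `O_v` of a place over `v` is nonzero. -/
theorem center_ne_bot {w : Place K F'} (hw : w.restrict F = v) :
    center w (mem_of_mem_overRing hw) ≠ ⊥ := by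
  obtain ⟨π, hπ⟩ := IsDiscreteValuationRing.exists_irreducible v.toValuationSubring
  have hπ0 : (π : F) ≠ 0 := by
    simpa [ne_eq, ZeroMemClass.coe_eq_zero] using hπ.ne_zero
  set s : overRing F' v := algebraMap v.toValuationSubring (overRing F' v) π with hs
  have hsF : algebraMap (overRing F' v) F' s = algebraMap F F' (π : F) := rfl
  have hs0 : s ≠ 0 := by
    intro h0
    have : algebraMap (overRing F' v) F' s = 0 := by rw [h0, map_zero]
    rw [hsF] at this
    exact hπ0 ((map_eq_zero _).mp this)
  have hmem : s ∈ center w (mem_of_mem_overRing hw) := by
    rw [mem_center_iff_ord_pos _ _ hs0, hsF, w.ord_restrict, hw, v.ord_coe_irreducible hπ,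
      mul_one]
    exact_mod_cast w.ramificationIndex_pos (F := F)
  intro hbot
  rw [hbot, Ideal.mem_bot] at hmem
  exact hs0 hmem

variable {F'} {v} in
/-- **Dictionary**: every place over `v` comes from a nonzero prime of the integral closure of
`O_v`. -/
theorem exists_placeOf_eq {w : Place K F'} (hw : w.restrict F = v) :
    ∃ q : HeightOneSpectrum (overRing F' v), placeOf K q = w :=
  ⟨⟨center w (mem_of_mem_overRing hw), inferInstance, center_ne_bot hw⟩,
    placeOf_center w (mem_of_mem_overRing hw) (center_ne_bot hw)⟩

end bridge

section sum

variable [CharZero K] [FiniteDimensional F F'] (v : Place K F)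

variable {F'} {v} in
theorem algebraMap_overRing_ne_zero {a : v.toValuationSubring} (ha : a ≠ 0) :
    algebraMap v.toValuationSubring (overRing F' v) a ≠ 0 := by
  intro h0
  have h1 : algebraMap (overRing F' v) F'
      (algebraMap v.toValuationSubring (overRing F' v) a) = 0 := by rw [h0, map_zero]
  have h2 : algebraMap F F' (a : F) = 0 := h1
  have h3 : (a : F) = 0 := (map_eq_zero _).mp h2
  exact ha (Subtype.ext h3)

variable {F'} {v} in
/-- A uniformizer of `v` lies in every nonzero prime of the integral closure of `O_v`. -/
theorem uniformizer_mem (q : HeightOneSpectrum (overRing F' v)) {π : v.toValuationSubring}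
    (hπ : Irreducible π) :
    algebraMap v.toValuationSubring (overRing F' v) π ∈ q.asIdeal := by
  rw [← center_placeOf (K := K) (F := F') q,
    mem_center_iff_ord_pos _ _ (algebraMap_overRing_ne_zero hπ.ne_zero)]
  show 0 < (placeOf K q : Place K F').ord (algebraMap F F' (π : F))
  rw [Place.ord_restrict, restrict_placeOf q, v.ord_coe_irreducible hπ, mul_one]
  exact_mod_cast Place.ramificationIndex_pos (F := F) _

instance liesOver_maximalIdeal (q : HeightOneSpectrum (overRing F' v)) :
    q.asIdeal.LiesOver (IsLocalRing.maximalIdeal v.toValuationSubring) := by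
  obtain ⟨π, hπ⟩ := IsDiscreteValuationRing.exists_irreducible v.toValuationSubring
  refine ⟨?_⟩
  have hle : IsLocalRing.maximalIdeal v.toValuationSubring ≤
      q.asIdeal.under v.toValuationSubring := by
    rw [hπ.maximalIdeal_eq, Ideal.span_le, Set.singleton_subset_iff]
    exact uniformizer_mem q hπ
  have := q.isPrime
  exact (IsLocalRing.maximalIdeal.isMaximal _).eq_of_le
    (Ideal.IsPrime.under _ q.asIdeal).ne_top hle

variable {F'} {v} in
theorem map_maximalIdeal_eq {π : v.toValuationSubring} (hπ : Irreducible π) :
    (IsLocalRing.maximalIdeal v.toValuationSubring).map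
        (algebraMap v.toValuationSubring (overRing F' v)) =
      Ideal.span {algebraMap v.toValuationSubring (overRing F' v) π} := by
  rw [hπ.maximalIdeal_eq, Ideal.map_span, Set.image_singleton]

theorem map_maximalIdeal_ne_bot :
    (IsLocalRing.maximalIdeal v.toValuationSubring).map
        (algebraMap v.toValuationSubring (overRing F' v)) ≠ ⊥ := by
  obtain ⟨π, hπ⟩ := IsDiscreteValuationRing.exists_irreducible v.toValuationSubring
  rw [map_maximalIdeal_eq hπ, Ne, Ideal.span_singleton_eq_bot]
  exact algebraMap_overRing_ne_zero hπ.ne_zero

variable {F'} {v} in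
/-- The order of a uniformizer of `v` at the place of `q` is the ramification index of `q`. -/
theorem ord_uniformizer_placeOf (q : HeightOneSpectrum (overRing F' v))
    {π : v.toValuationSubring} (hπ : Irreducible π) :
    (placeOf K q : Place K F').ord (algebraMap F F' (π : F)) =
      (q.asIdeal.ramificationIdx v.toValuationSubring : ℤ) := by
  have := q.isPrime
  rw [Ideal.IsDedekindDomain.ramificationIdx_eq_multiplicity
    (IsLocalRing.maximalIdeal v.toValuationSubring) q.asIdeal (map_maximalIdeal_ne_bot F' v),
    map_maximalIdeal_eq hπ, ord_placeOf]
  have h1 : q.valuation F' (algebraMap F F' (π : F)) =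
      q.intValuation (algebraMap v.toValuationSubring (overRing F' v) π) :=
    q.valuation_of_algebraMap (algebraMap v.toValuationSubring (overRing F' v) π)
  rw [h1, q.intValuation_eq_exp_neg_multiplicity (algebraMap_overRing_ne_zero hπ.ne_zero)]
  simp

variable {F'} {v} in
/-- The Prelude ramification index of the place of `q` is the ramification index of `q`. -/
theorem ramificationIndex_placeOf (q : HeightOneSpectrum (overRing F' v)) :
    ((placeOf K q : Place K F').ramificationIndex F : ℤ) =
      (q.asIdeal.ramificationIdx v.toValuationSubring : ℤ) := by
  obtain ⟨π, hπ⟩ := IsDiscreteValuationRing.exists_irreducible v.toValuationSubring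
  rw [← ord_uniformizer_placeOf q hπ, Place.ord_restrict, restrict_placeOf q,
    v.ord_coe_irreducible hπ, mul_one]

variable {F'} {v} in
/-- Over an algebraically closed constant field all residue degrees are one. -/
theorem inertiaDeg_eq_one [IsAlgClosed K] {x : F'} (hx : Transcendental K x)
    [FiniteDimensional (IntermediateField.adjoin K {x}) F']
    (q : HeightOneSpectrum (overRing F' v)) :
    q.asIdeal.inertiaDeg v.toValuationSubring = 1 := by
  have : q.asIdeal.IsMaximal := q.isPrime.isMaximal q.ne_bot
  refine Fermat.Agent.S24.FF.inertiaDeg_eq_one_of_forall_exists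
    (IsLocalRing.maximalIdeal v.toValuationSubring) q.asIdeal fun s => ?_
  have hsO : algebraMap (overRing F' v) F' s ∈ (placeOf K q : Place K F').toValuationSubring :=
    algebraMap_mem_placeOf q s
  obtain ⟨a, ha⟩ := Fermat.Agent.S24.FF.exists_const_sub_mem_nonunits (placeOf K q) hx hsO
  refine ⟨algebraMap K v.toValuationSubring a, ?_⟩
  rw [← center_placeOf (K := K) (F := F') q, mem_center_iff]
  have : algebraMap (overRing F' v) F'
      (s - algebraMap v.toValuationSubring (overRing F' v) (algebraMap K v.toValuationSubring a))
      = algebraMap (overRing F' v) F' s - algebraMap K F' a := by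
    rw [map_sub]
    congr 1
    show algebraMap F F' (algebraMap K F a) = algebraMap K F' a
    rw [← IsScalarTower.algebraMap_apply]
  rw [this]
  exact ha

/-- The nonzero prime attached to a prime over the maximal ideal of `O_v`. -/
def primeOfOver (q : (IsLocalRing.maximalIdeal v.toValuationSubring).primesOver (overRing F' v)) :
    HeightOneSpectrum (overRing F' v) :=
  ⟨q.1, q.2.1, fun h => by
    have h1 := q.2.2.over
    rw [h] at h1
    obtain ⟨π, hπ⟩ := IsDiscreteValuationRing.exists_irreducible v.toValuationSubring
    have h2 : π ∈ IsLocalRing.maximalIdeal v.toValuationSubring := by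
      rw [hπ.maximalIdeal_eq]
      exact Ideal.subset_span rfl
    rw [h1] at h2
    exact algebraMap_overRing_ne_zero (F' := F') hπ.ne_zero (by simpa using h2)⟩

@[simp] theorem primeOfOver_asIdeal
    (q : (IsLocalRing.maximalIdeal v.toValuationSubring).primesOver (overRing F' v)) :
    (primeOfOver F' v q).asIdeal = q.1 := rfl

theorem primeOfOver_bijective : Function.Bijective (primeOfOver F' v) := by
  constructor
  · intro q q' h
    exact Subtype.ext (congrArg HeightOneSpectrum.asIdeal h)
  · intro q
    exact ⟨⟨q.asIdeal, q.isPrime, liesOver_maximalIdeal F' v q⟩, rfl⟩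

end sum

end Fermat.Agent.Lib.FF
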